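import Fermat.Agent.M2B.Mod
import Fermat.Agent.H29.GR

/-!
# Isotropy at levels with good reduction charts
-/

set_option autoImplicit false

noncomputable section

namespace Fermat.Agent.M2B

open ModularCurve
open Fermat.Agent.H28 Fermat.Agent.WP

local notation "Qb" => AlgebraicClosure ℚ

/-- **M2, Step B** at the levels where the two charts are available. -/
theorem weilPairing_eq_one_of_lvl_of_level {M : ℕ} [NeZero M] {A : ValuationSubring Qb} {r : ℕ}
    (hr : r.Prime) (hA : A.LiesOverPrime r)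
    (hyp : ¬ r ∣ M ∧ ((2 ∣ M ∧ r ≠ 2) ∨ (3 ∣ M ∧ r ≠ 3))) {ε : Qb} (hε0 : ε ≠ 0)
    (hε : ε ^ (r - 1) / r ∈ A.nonunits) {k : ℕ} {x y : JZero M}
    (hx : x ∈ P.lvl A M (r ^ k) ε) (hy : y ∈ P.lvl A M (r ^ k) ε) :
    weilPairing (r ^ k) x y = 1 :=
  weilPairing_eq_one_of_lvl (modCharts M A (H29.isChart_j hr hA hyp) (H29.isChart_jinv hr hA hyp))
    hr hA hε0 hε hx hy

end Fermat.Agent.M2B
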