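import Mathlib
import Fermat.Agent.WP.Pairing

/-!
# Residue discs: the local symbols of functions close to `1`

`GRed` is a relational form of good reduction of a function field at a valuation ring `A` of the
constant field. `GRed.pair_mem` : the global pairing of two pairs `(D, h)`, `(E, k)` with
`h, k ≡ 1 mod ε` is `≡ 1 mod ε`.
-/

set_option autoImplicit false
set_option linter.unusedSectionVars false

noncomputable section

namespace Fermat.Agent.M2B

open AlgebraicCurve Polynomial IsLocalRing WithZero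
open Fermat.Agent.FF Fermat.Agent.WP

/-- Good reduction, relational form. -/
structure GRed (K F Fb : Type*) [Field K] [Field F] [Field Fb] [Algebra K F]
    (A : ValuationSubring K) [Algebra (ResidueField A) Fb] where
  Red : F → Fb → Prop
  add : ∀ {z z' u u'}, Red z u → Red z' u' → Red (z + z') (u + u')
  mul : ∀ {z z' u u'}, Red z u → Red z' u' → Red (z * z') (u * u')
  alg : ∀ a : A, Red (algebraMap K F a) (algebraMap (ResidueField A) Fb (residue A a))
  inv : ∀ {z u}, Red z u → u ≠ 0 → Red z⁻¹ u⁻¹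
  zero : ∀ {u}, Red 0 u → u = 0
  pl : Place K F → Place (ResidueField A) Fb
  ord_eq : ∀ {z u}, Red z u → u ≠ 0 → ∀ E : Divisor K F, (∀ P, E P = P.ord z) →
    ∀ Q, Finsupp.mapDomain pl E Q = Q.ord u
  param : ∀ Q, ∃ t u, Red t u ∧ Q.ord u = 1 ∧ ∀ P, pl P = Q → P.adicValuation t ≤ 1

section Gen

theorem one_iff {K F : Type*} [Field K] [Field F] [Algebra K F] {v : Place K F} {f : F} :
    v.adicValuation f = 1 ↔ f ≠ 0 ∧ v.ord f = 0 := by
  rcases eq_or_ne f 0 with rfl | hf
  · simp
  · rw [v.adicValuation_eq_exp_neg_ord hf, show (1 : ℤᵐ⁰) = exp 0 from rfl, exp_inj]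
    constructor
    · intro h; exact ⟨hf, by omega⟩
    · rintro ⟨-, h⟩; omega

variable {K : Type*} [Field K] (A : ValuationSubring K)

theorem inv_mem_of_notMem {x : K} (hx : x ∉ A) :
    ∃ h : x⁻¹ ∈ A, residue A ⟨x⁻¹, h⟩ = 0 := by
  have h1 : x⁻¹ ∈ A := (A.mem_or_inv_mem x).resolve_left hx
  refine ⟨h1, ?_⟩
  rw [residue_eq_zero_iff, mem_maximalIdeal, mem_nonunits_iff]
  intro hu
  obtain ⟨y, hy⟩ := hu.exists_right_inv
  apply hx
  have h2 : x⁻¹ * (y : K) = 1 := congrArg Subtype.val hy
  have h3 : x = y := by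
    have hx0 : x ≠ 0 := by
      rintro rfl
      exact hx A.zero_mem
    field_simp at h2
    exact h2.symm
  rw [h3]
  exact y.2

/-- content of a polynomial over a valuation ring -/
theorem exists_content (p : A[X]) (hp : p ≠ 0) :
    ∃ (δ : A) (q : A[X]), δ ≠ 0 ∧ p = C δ * q ∧ q.map (residue A) ≠ 0 := by
  classical
  obtain ⟨i, hi, hmax⟩ := Finset.exists_max_image p.support
    (fun j => A.valuation (p.coeff j : K)) (Polynomial.support_nonempty.mpr hp)
  have hi0 : p.coeff i ≠ 0 := Polynomial.mem_support_iff.mp hi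
  have hi0' : (p.coeff i : K) ≠ 0 := fun h => hi0 (Subtype.ext h)
  have hdvd : ∀ j, ∃ b : A, p.coeff j = p.coeff i * b := by
    intro j
    by_cases hj : j ∈ p.support
    · have h1 := hmax j hj
      have h2 : (p.coeff j : K) / p.coeff i ∈ A := by
        rw [← A.valuation_le_one_iff, map_div₀]
        exact div_le_one_of_le₀ h1 zero_le
      refine ⟨⟨_, h2⟩, Subtype.ext ?_⟩
      change (p.coeff j : K) = p.coeff i * (p.coeff j / p.coeff i)
      field_simp
    · exact ⟨0, by rw [Polynomial.notMem_support_iff.mp hj, mul_zero]⟩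
  have hC : C (p.coeff i) ∣ p := by
    rw [Polynomial.C_dvd_iff_dvd_coeff]
    intro j
    obtain ⟨b, hb⟩ := hdvd j
    exact ⟨b, hb⟩
  obtain ⟨q, hq⟩ := hC
  refine ⟨p.coeff i, q, hi0, hq, ?_⟩
  intro h0
  have h1 : q.coeff i = 1 := by
    have h2 := congrArg (fun r => r.coeff i) hq
    simp only [Polynomial.coeff_C_mul] at h2
    exact mul_left_cancel₀ hi0 (by rw [← h2, mul_one])
  have h3 := congrArg (fun r => r.coeff i) h0
  simp only [Polynomial.coeff_map, h1, map_one, Polynomial.coeff_zero] at h3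
  exact one_ne_zero h3

/-- the units congruent to `1` modulo `ε` -/
def Ueps {ε : K} (hε : ε ∈ A.nonunits) : Subgroup Kˣ where
  carrier := {u | ∃ a ∈ A, (u : K) = 1 + ε * a}
  one_mem' := ⟨0, A.zero_mem, by simp⟩
  mul_mem' := by
    rintro u v ⟨a, ha, hu⟩ ⟨b, hb, hv⟩
    have hεA : ε ∈ A := A.nonunits_subset hε
    refine ⟨a + b + ε * a * b, ?_, ?_⟩
    · exact A.add_mem _ _ (A.add_mem _ _ ha hb) (A.mul_mem _ _ (A.mul_mem _ _ hεA ha) hb)
    · rw [Units.val_mul, hu, hv]
      ring
  inv_mem' := by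
    rintro u ⟨a, ha, hu⟩
    have hεA : ε ∈ A := A.nonunits_subset hε
    have h1 : A.valuation (ε * a) < 1 := by
      rw [map_mul]
      exact mul_lt_one_of_lt_of_le (A.mem_nonunits_iff.mp hε) ((A.valuation_le_one_iff a).mpr ha)
    have h2 : A.valuation (u : K) = 1 := by
      rw [hu]
      have := Valuation.map_add_eq_of_lt_right A.valuation (x := ε * a) (y := 1)
        (by rwa [map_one])
      rw [add_comm, this, map_one]
    have h3 : (u : K)⁻¹ ∈ A := by
      rw [← A.valuation_le_one_iff, map_inv₀, h2, inv_one]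
    refine ⟨-(a * (u : K)⁻¹), A.neg_mem _ (A.mul_mem _ _ ha h3), ?_⟩
    rw [Units.val_inv_eq_inv_val]
    have hu0 : (u : K) ≠ 0 := u.ne_zero
    field_simp
    rw [hu]
    ring

theorem mem_Ueps {ε : K} (hε : ε ∈ A.nonunits) {u : Kˣ} :
    u ∈ Ueps A hε ↔ ∃ a ∈ A, (u : K) = 1 + ε * a := Iff.rfl

end Gen

namespace GRed

variable {K F Fb : Type*} [Field K] [Field F] [Field Fb] [Algebra K F] [IsAlgClosed K]
  [CharZero K] [FunField K F] {A : ValuationSubring K} [Algebra (ResidueField A) Fb]

variable (G : GRed K F Fb A)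

theorem exists_div (z : F) : ∃ E : Divisor K F, ∀ P, E P = P.ord z := by
  by_cases hz : z = 0
  · exact ⟨0, fun P => by rw [hz, Place.ord_zero]; rfl⟩
  · obtain ⟨E, hE, -⟩ := HasPrincipalDivisors.exists_divisor (K := K) z hz
    exact ⟨E, hE⟩

variable {G}

theorem one : G.Red 1 1 := by
  have := G.alg 1
  rwa [map_one, map_one, OneMemClass.coe_one, map_one] at this

theorem red_zero : G.Red 0 0 := by
  have := G.alg 0
  rwa [map_zero, map_zero, ZeroMemClass.coe_zero, map_zero] at this

theorem neg {z : F} {u : Fb} (h : G.Red z u) : G.Red (-z) (-u) := by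
  have := G.mul (G.alg (-1)) h
  rw [map_neg, map_one, map_neg, map_one] at this
  change G.Red (algebraMap K F (-1) * z) _ at this
  rwa [map_neg, map_one, neg_one_mul, neg_one_mul] at this

theorem sub {z z' : F} {u u' : Fb} (h : G.Red z u) (h' : G.Red z' u') :
    G.Red (z - z') (u - u') := by
  rw [sub_eq_add_neg, sub_eq_add_neg]
  exact G.add h (neg h')

theorem pow {z : F} {u : Fb} (h : G.Red z u) (n : ℕ) : G.Red (z ^ n) (u ^ n) := by
  induction n with
  | zero => rw [pow_zero, pow_zero]; exact one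
  | succ n ih => rw [pow_succ, pow_succ]; exact G.mul ih h

theorem unique {z : F} {u u' : Fb} (h : G.Red z u) (h' : G.Red z u') : u = u' := by
  have := sub h h'
  rw [sub_self] at this
  exact sub_eq_zero.mp (G.zero this)

/-- evaluation of polynomials over `A` -/
def ev (A : ValuationSubring K) (t : F) : A[X] →+* F :=
  Polynomial.eval₂RingHom ((algebraMap K F).comp A.subtype) t

theorem ev_X (t : F) : ev A t X = t := by
  change Polynomial.eval₂ _ t X = t
  rw [eval₂_X]

theorem ev_C (t : F) (a : A) : ev A t (C a) = algebraMap K F a := by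
  change Polynomial.eval₂ _ t (C a) = _
  rw [eval₂_C]
  rfl

theorem red_ev {t : F} {τ : Fb} (h : G.Red t τ) (p : A[X]) :
    G.Red (ev A t p) (aeval τ (p.map (residue A))) := by
  induction p using Polynomial.induction_on' with
  | add p q hp hq =>
    rw [map_add, Polynomial.map_add, map_add]
    exact G.add hp hq
  | monomial n a =>
    rw [← Polynomial.C_mul_X_pow_eq_monomial, map_mul, map_pow, ev_X, ev_C, Polynomial.map_mul,
      Polynomial.map_pow, Polynomial.map_C, Polynomial.map_X, map_mul, map_pow, aeval_X, aeval_C]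
    exact G.mul (G.alg a) (pow h n)

/-- regular on the residue disc of `Q` -/
def RegOn (G : GRed K F Fb A) (Q : Place (ResidueField A) Fb) (z : F) : Prop :=
  ∀ P, G.pl P = Q → P.adicValuation z ≤ 1

variable {Q : Place (ResidueField A) Fb}

theorem RegOn.add {z z' : F} (h : G.RegOn Q z) (h' : G.RegOn Q z') : G.RegOn Q (z + z') :=
  fun P hP => (Valuation.map_add _ _ _).trans (max_le (h P hP) (h' P hP))

theorem RegOn.sub {z z' : F} (h : G.RegOn Q z) (h' : G.RegOn Q z') : G.RegOn Q (z - z') :=
  fun P hP => (Valuation.map_sub _ _ _).trans (max_le (h P hP) (h' P hP))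

theorem RegOn.mul {z z' : F} (h : G.RegOn Q z) (h' : G.RegOn Q z') : G.RegOn Q (z * z') :=
  fun P hP => by
    rw [map_mul]
    exact mul_le_one' (h P hP) (h' P hP)

theorem regOn_const (c : K) : G.RegOn Q (algebraMap K F c) :=
  fun P _ => P.adicValuation_algebraMap_le_one c

theorem ord_nonneg {P : Place K F} {z : F} (h : P.adicValuation z ≤ 1) : 0 ≤ P.ord z := by
  rcases P.adicValuation_le_one_iff.mp h with h | h
  · rw [h, Place.ord_zero]
  · exact h

theorem ord_pos {P : Place K F} {z : F} (hz : z ≠ 0) (h : P.adicValuation z < 1) :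
    0 < P.ord z := by
  have h1 := ord_nonneg h.le
  rcases h1.lt_or_eq with h2 | h2
  · exact h2
  · exfalso
    have := val_one_iff.mpr ⟨hz, h2.symm⟩
    rw [this] at h
    exact lt_irrefl _ h

/-- the number of zeros in the disc -/
theorem sum_le {z : F} {u : Fb} (h : G.Red z u) (hu : u ≠ 0) (hz : G.RegOn Q z)
    (s : Finset (Place K F)) (hs : ∀ P ∈ s, G.pl P = Q) :
    ∑ P ∈ s, P.ord z ≤ Q.ord u := by
  classical
  obtain ⟨E, hE⟩ := exists_div (K := K) z
  rw [← G.ord_eq h hu E hE Q]
  have h1 : Finsupp.mapDomain G.pl E Q = ∑ P ∈ E.support.filter (fun P => G.pl P = Q), E P := by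
    rw [Finsupp.mapDomain, Finsupp.sum_apply, Finsupp.sum, Finset.sum_filter]
    refine Finset.sum_congr rfl fun P _ => ?_
    rw [Finsupp.single_apply]
  have h2 : ∑ P ∈ E.support.filter (fun P => G.pl P = Q), E P =
      ∑ P ∈ s ∪ E.support.filter (fun P => G.pl P = Q), E P := by
    refine Finset.sum_subset Finset.subset_union_right fun P hP hP' => ?_
    rw [Finset.mem_union] at hP
    rcases hP with hP | hP
    · by_contra h3
      exact hP' (Finset.mem_filter.mpr ⟨Finsupp.mem_support_iff.mpr h3, hs P hP⟩)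
    · exact absurd hP hP'
  rw [h1, h2]
  have h3 : ∑ P ∈ s, P.ord z = ∑ P ∈ s, E P := Finset.sum_congr rfl fun P _ => (hE P).symm
  rw [h3]
  refine Finset.sum_le_sum_of_subset_of_nonneg Finset.subset_union_left fun P hP _ => ?_
  rw [hE]
  apply ord_nonneg
  apply hz
  rw [Finset.mem_union] at hP
  rcases hP with hP | hP
  · exact hs P hP
  · exact (Finset.mem_filter.mp hP).2

theorem ord_le {z : F} {u : Fb} (h : G.Red z u) (hu : u ≠ 0) (hz : G.RegOn Q z)
    {P : Place K F} (hP : G.pl P = Q) : P.ord z ≤ Q.ord u := by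
  have := sum_le h hu hz {P} (fun P' hP' => by rw [Finset.mem_singleton.mp hP', hP])
  rwa [Finset.sum_singleton] at this

/-- **Maximum principle** -/
theorem val_mem {z : F} {u : Fb} (h : G.Red z u) (hz : G.RegOn Q z)
    {P : Place K F} (hP : G.pl P = Q) : val P z ∈ A := by
  by_contra hc
  obtain ⟨h1, h2⟩ := inv_mem_of_notMem A hc
  have hc0 : val P z ≠ 0 := by
    intro h0
    exact hc (h0 ▸ A.zero_mem)
  have h3 : G.Red (1 - algebraMap K F (val P z)⁻¹ * z) 1 := by
    have h4 := sub one (G.mul (G.alg ⟨_, h1⟩) h)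
    rw [h2, map_zero, zero_mul, sub_zero] at h4
    exact h4
  have h4 : (1 - algebraMap K F (val P z)⁻¹ * z) ≠ 0 := by
    intro h0
    rw [h0] at h3
    exact one_ne_zero (G.zero h3)
  have h5 : G.RegOn Q (1 - algebraMap K F (val P z)⁻¹ * z) := by
    refine RegOn.sub ?_ (RegOn.mul (regOn_const _) hz)
    have := regOn_const (G := G) (Q := Q) 1
    rwa [map_one] at this
  have h6 : P.adicValuation (1 - algebraMap K F (val P z)⁻¹ * z) < 1 := by
    rw [← val_eq_zero_iff (h5 P hP)]
    have h7 : P.adicValuation (algebraMap K F (val P z)⁻¹ * z) ≤ 1 :=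
      RegOn.mul (regOn_const _) hz P hP
    rw [val_sub (by rw [map_one]) h7, val_one,
      val_mul (P.adicValuation_algebraMap_le_one _) (hz P hP), val_algebraMap,
      inv_mul_cancel₀ hc0, sub_self]
  have h7 := ord_pos h4 h6
  have h8 := ord_le h3 one_ne_zero h5 hP
  rw [Place.ord_one] at h8
  omega

theorem ord_sub_const {u : Fb} (hu : 0 < Q.ord u) {c : ResidueField A} (hc : c ≠ 0) :
    Q.adicValuation (u - algebraMap _ Fb c) = 1 := by
  have h1 : Q.adicValuation u < 1 := by
    rcases eq_or_ne u 0 with rfl | h0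
    · rw [map_zero]; exact zero_lt_one
    · refine lt_of_le_of_ne (Q.adicValuation_le_one_iff.mpr (Or.inr hu.le)) fun h => ?_
      have := (one_iff.mp h).2
      omega
  have h2 : Q.adicValuation (algebraMap _ Fb c) = 1 := val_const Q hc
  rw [Valuation.map_sub_eq_of_lt_right _ (by rw [h2]; exact h1), h2]

theorem val_residue {z : F} {u : Fb} (h : G.Red z u) (hu : 0 < Q.ord u) (hz : G.RegOn Q z)
    {P : Place K F} (hP : G.pl P = Q) : residue A ⟨val P z, val_mem h hz hP⟩ = 0 := by
  by_contra hc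
  set c : A := ⟨val P z, val_mem h hz hP⟩ with hcdef
  have h1 : G.Red (z - algebraMap K F c) (u - algebraMap _ Fb (residue A c)) :=
    sub h (G.alg c)
  have h2 := ord_sub_const hu hc
  obtain ⟨h3, h4⟩ := one_iff.mp h2
  have h5 : G.RegOn Q (z - algebraMap K F c) := RegOn.sub hz (regOn_const _)
  have h6 : (z - algebraMap K F c) ≠ 0 := by
    intro h0
    rw [h0] at h1
    exact h3 (G.zero h1)
  have h7 : P.adicValuation (z - algebraMap K F c) < 1 := val_spec (hz P hP)
  have h8 := ord_pos h6 h7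
  have h9 := ord_le h1 h3 h5 hP
  omega

end GRed

end Fermat.Agent.M2B
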