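import Mathlib
import Fermat.Agent.M2B.Disc
import Fermat.Agent.WP.Adj

/-!
# The product of the local symbols over a residue disc
-/

set_option autoImplicit false
set_option linter.unusedSectionVars false

noncomputable section

namespace Fermat.Agent.M2B

open AlgebraicCurve Polynomial IsLocalRing WithZero
open Fermat.Agent.FF Fermat.Agent.WP

namespace GRed

variable {K F Fb : Type*} [Field K] [Field F] [Field Fb] [Algebra K F] [IsAlgClosed K]
  [CharZero K] [FunField K F] {A : ValuationSubring K} [Algebra (ResidueField A) Fb]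
  {G : GRed K F Fb A} {Q : Place (ResidueField A) Fb}

/-- a local parameter of the disc -/
structure Par (G : GRed K F Fb A) (Q : Place (ResidueField A) Fb) where
  t : F
  τ : Fb
  red : G.Red t τ
  ord : Q.ord τ = 1
  reg : G.RegOn Q t

theorem exists_par (G : GRed K F Fb A) (Q : Place (ResidueField A) Fb) : Nonempty (Par G Q) := by
  obtain ⟨t, τ, h1, h2, h3⟩ := G.param Q
  exact ⟨⟨t, τ, h1, h2, h3⟩⟩

namespace Par

variable (p : Par G Q)

theorem τ_ne : p.τ ≠ 0 := by
  intro h
  have := p.ord
  rw [h, Place.ord_zero] at this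
  exact zero_ne_one this

/-- the coordinate of `P` as an element of `A` -/
def c (P : Place K F) : A := open scoped Classical in
  if hP : G.pl P = Q then ⟨val P p.t, val_mem p.red p.reg hP⟩ else 0

theorem c_eq {P : Place K F} (hP : G.pl P = Q) : (p.c P : K) = val P p.t := by
  rw [c, dif_pos hP]

theorem residue_c (P : Place K F) : residue A (p.c P) = 0 := by
  by_cases hP : G.pl P = Q
  · rw [c, dif_pos hP]
    exact val_residue p.red (by rw [p.ord]; exact zero_lt_one) p.reg hP
  · rw [c, dif_neg hP, map_zero]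

/-- the linear function vanishing at `P` -/
def l (P : Place K F) : F := p.t - algebraMap K F (p.c P)

theorem red_l (P : Place K F) : G.Red (p.l P) p.τ := by
  have := sub p.red (G.alg (p.c P))
  rwa [residue_c, map_zero, sub_zero] at this

theorem l_ne (P : Place K F) : p.l P ≠ 0 := by
  intro h
  have := p.red_l P
  rw [h] at this
  exact p.τ_ne (G.zero this)

theorem reg_l (P : Place K F) : G.RegOn Q (p.l P) := RegOn.sub p.reg (regOn_const _)

theorem val_l {P P' : Place K F} (hP : G.pl P = Q) :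
    val P (p.l P') = p.c P - p.c P' := by
  rw [l, val_sub (p.reg P hP) (P.adicValuation_algebraMap_le_one _), val_algebraMap, p.c_eq hP]

theorem ord_l_self {P : Place K F} (hP : G.pl P = Q) : P.ord (p.l P) = 1 := by
  have h1 := ord_le (p.red_l P) p.τ_ne (p.reg_l P) hP
  rw [p.ord] at h1
  have h2 : P.adicValuation (p.l P) < 1 := by
    rw [← val_eq_zero_iff (p.reg_l P P hP), p.val_l hP, sub_self]
  have h3 := ord_pos (p.l_ne P) h2
  omega

theorem ord_l_ne {P P' : Place K F} (hP : G.pl P = Q) (hP' : G.pl P' = Q) (hne : P' ≠ P) :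
    P'.ord (p.l P) = 0 := by
  classical
  have h1 := sum_le (p.red_l P) p.τ_ne (p.reg_l P) {P, P'} (by
    intro R hR
    rw [Finset.mem_insert, Finset.mem_singleton] at hR
    rcases hR with rfl | rfl
    · exact hP
    · exact hP')
  rw [Finset.sum_pair hne.symm, p.ord_l_self hP, p.ord] at h1
  have h2 := ord_nonneg (p.reg_l P P' hP')
  omega

theorem ord_l {P P' : Place K F} [Decidable (P' = P)] (hP : G.pl P = Q) (hP' : G.pl P' = Q) :
    P'.ord (p.l P) = if P' = P then 1 else 0 := by
  split_ifs with h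
  · rw [h, p.ord_l_self hP]
  · exact p.ord_l_ne hP hP' h

theorem unit_l {P P' : Place K F} (hP : G.pl P = Q) (hP' : G.pl P' = Q) (hne : P' ≠ P) :
    P'.adicValuation (p.l P) = 1 := val_one_iff.mpr ⟨p.l_ne P, p.ord_l_ne hP hP' hne⟩

theorem coe_uval_l {P P' : Place K F} (hP : G.pl P = Q) (hP' : G.pl P' = Q) (hne : P' ≠ P) :
    (uval P' (p.l P) : K) = p.c P' - p.c P := by
  rw [uval_coe (p.unit_l hP hP' hne), p.val_l hP']

/-- the basic symbol over the disc is `-1` -/
theorem prod_tame_l (s : Finset (Place K F)) (hs : ∀ P ∈ s, G.pl P = Q) {a b : Place K F}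
    (ha : a ∈ s) (hb : b ∈ s) : ∏ P ∈ s, tame P (p.l a) (p.l b) = -1 := by
  classical
  by_cases hab : a = b
  · subst hab
    rw [Finset.prod_eq_single a]
    · rw [tame_self a (p.l_ne a), p.ord_l_self (hs a ha), zpow_one]
    · intro P hP hne
      rw [tame_self P (p.l_ne a), p.ord_l_ne (hs a ha) (hs P hP) hne, zpow_zero]
    · intro h
      exact absurd ha h
  · rw [Finset.prod_eq_mul a b hab]
    · have h1 := p.unit_l (hs b hb) (hs a ha) hab
      have h2 := p.unit_l (hs a ha) (hs b hb) (Ne.symm hab)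
      rw [tame_of_unit_right h1, tame_of_unit_left h2, p.ord_l_self (hs a ha),
        p.ord_l_self (hs b hb), zpow_one, zpow_one]
      have h3 := p.coe_uval_l (hs b hb) (hs a ha) hab
      have h4 := p.coe_uval_l (hs a ha) (hs b hb) (Ne.symm hab)
      have h5 : uval b (p.l a) = -uval a (p.l b) := by
        apply Units.ext
        rw [Units.val_neg, h3, h4]
        ring
      rw [h5, mul_neg, inv_mul_cancel]
    · rintro P hP ⟨h1, h2⟩
      exact tame_of_units (p.unit_l (hs a ha) (hs P hP) h1) (p.unit_l (hs b hb) (hs P hP) h2)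
    · intro h
      exact absurd ha h
    · intro h
      exact absurd hb h

/-- the rational function with prescribed divisor in the disc -/
def gf (s : Finset (Place K F)) (D : Place K F → ℤ) : F := ∏ P ∈ s, p.l P ^ D P

theorem gf_ne (s : Finset (Place K F)) (D : Place K F → ℤ) : p.gf s D ≠ 0 :=
  Finset.prod_ne_zero_iff.mpr fun P _ => zpow_ne_zero _ (p.l_ne P)

theorem ord_prod {ι : Type*} (v : Place K F) (s : Finset ι) (f : ι → F) (hf : ∀ i ∈ s, f i ≠ 0) :
    v.ord (∏ i ∈ s, f i) = ∑ i ∈ s, v.ord (f i) := by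
  classical
  induction s using Finset.induction_on with
  | empty => simp
  | insert a s ha ih =>
    rw [Finset.prod_insert ha, Finset.sum_insert ha, v.ord_mul (hf a (Finset.mem_insert_self _ _))
      (Finset.prod_ne_zero_iff.mpr fun i hi => hf i (Finset.mem_insert_of_mem hi)),
      ih fun i hi => hf i (Finset.mem_insert_of_mem hi)]

theorem ord_gf (s : Finset (Place K F)) (hs : ∀ P ∈ s, G.pl P = Q) (D : Place K F → ℤ)
    {P : Place K F} (hP : G.pl P = Q) (hD : P ∉ s → D P = 0) : P.ord (p.gf s D) = D P := by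
  classical
  rw [gf, ord_prod P s _ fun a _ => zpow_ne_zero _ (p.l_ne a)]
  have h1 : ∀ a ∈ s, P.ord (p.l a ^ D a) = if P = a then D a else 0 := by
    intro a ha
    rw [P.ord_zpow, p.ord_l (hs a ha) hP]
    split_ifs <;> simp
  rw [Finset.sum_congr rfl h1, Finset.sum_ite_eq s P]
  split_ifs with h
  · rfl
  · exact (hD h).symm

theorem tame_prod_left {ι : Type*} (v : Place K F) (s : Finset ι) (f : ι → F)
    (hf : ∀ i ∈ s, f i ≠ 0) {g : F} (hg : g ≠ 0) :
    tame v (∏ i ∈ s, f i) g = ∏ i ∈ s, tame v (f i) g := by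
  classical
  induction s using Finset.induction_on with
  | empty => rw [Finset.prod_empty, Finset.prod_empty, tame_one_left]
  | insert a s ha ih =>
    rw [Finset.prod_insert ha, Finset.prod_insert ha,
      tame_mul_left v (hf a (Finset.mem_insert_self _ _))
      (Finset.prod_ne_zero_iff.mpr fun i hi => hf i (Finset.mem_insert_of_mem hi)) hg,
      ih fun i hi => hf i (Finset.mem_insert_of_mem hi)]

theorem tame_gf_left (v : Place K F) (s : Finset (Place K F)) (D : Place K F → ℤ) {g : F}
    (hg : g ≠ 0) : tame v (p.gf s D) g = ∏ a ∈ s, tame v (p.l a) g ^ D a := by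
  rw [gf, tame_prod_left v s _ (fun a _ => zpow_ne_zero _ (p.l_ne a)) hg]
  exact Finset.prod_congr rfl fun a _ => tame_zpow_left v (p.l_ne a) hg _

theorem tame_gf_right (v : Place K F) (s : Finset (Place K F)) (D : Place K F → ℤ) {g : F}
    (hg : g ≠ 0) : tame v g (p.gf s D) = ∏ a ∈ s, tame v g (p.l a) ^ D a := by
  rw [tame_symm v (p.gf s D) g, p.tame_gf_left v s D hg, ← Finset.prod_inv_distrib]
  exact Finset.prod_congr rfl fun a _ => by rw [← inv_zpow, ← tame_symm]

theorem prod_zpow_sum {ι U : Type*} [CommGroup U] (s : Finset ι) (a : U) (f : ι → ℤ) :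
    ∏ i ∈ s, a ^ f i = a ^ ∑ i ∈ s, f i := by
  classical
  induction s using Finset.induction_on with
  | empty => simp
  | insert b s hb ih => rw [Finset.prod_insert hb, Finset.sum_insert hb, zpow_add, ih]

/-- reciprocity in the disc -/
theorem prod_tame_gf (s : Finset (Place K F)) (hs : ∀ P ∈ s, G.pl P = Q)
    (D D' : Place K F → ℤ) (hD : ∑ P ∈ s, D P = 0) :
    ∏ P ∈ s, tame P (p.gf s D) (p.gf s D') = 1 := by
  have h1 : ∀ P ∈ s, tame P (p.gf s D) (p.gf s D') =
      ∏ a ∈ s, ∏ b ∈ s, tame P (p.l a) (p.l b) ^ (D' b * D a) := by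
    intro P _
    rw [p.tame_gf_left P s D (p.gf_ne s D')]
    refine Finset.prod_congr rfl fun a _ => ?_
    rw [p.tame_gf_right P s D' (p.l_ne a), ← Finset.prod_zpow]
    exact Finset.prod_congr rfl fun b _ => by rw [zpow_mul]
  rw [Finset.prod_congr rfl h1, Finset.prod_comm]
  have h2 : ∀ a ∈ s, ∏ P ∈ s, ∏ b ∈ s, tame P (p.l a) (p.l b) ^ (D' b * D a) =
      ((-1 : Kˣ) ^ (∑ b ∈ s, D' b)) ^ D a := by
    intro a ha
    rw [Finset.prod_comm]
    have h3 : ∀ b ∈ s, ∏ P ∈ s, tame P (p.l a) (p.l b) ^ (D' b * D a) =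
        ((-1 : Kˣ) ^ D' b) ^ D a := by
      intro b hb
      rw [Finset.prod_zpow, p.prod_tame_l s hs ha hb, zpow_mul]
    rw [Finset.prod_congr rfl h3, Finset.prod_zpow, prod_zpow_sum]
  rw [Finset.prod_congr rfl h2, prod_zpow_sum, hD, zpow_zero]

end Par

end GRed

end Fermat.Agent.M2B
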