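import Mathlib
import Fermat.Agent.M2B.Local

/-!
# Functions `≡ 1 mod ε` in a residue disc
-/

set_option autoImplicit false
set_option linter.unusedSectionVars false

noncomputable section

namespace Fermat.Agent.M2B

open AlgebraicCurve Polynomial IsLocalRing WithZero
open Fermat.Agent.FF Fermat.Agent.WP

namespace GRed

variable {K F Fb : Type*} [Field K] [Field F] [Field Fb] [Algebra K F] [IsAlgClosed K]
  [CharZero K] [FunField K F] {A : ValuationSubring K} [Algebra (ResidueField A) Fb]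
  {G : GRed K F Fb A} {Q : Place (ResidueField A) Fb}

/-- the order of a polynomial in a uniformizer is at most its degree -/
theorem ord_aeval_le {k E : Type*} [Field k] [Field E] [Algebra k E] (Q : Place k E) {τ : E}
    (hτ : Q.ord τ = 1) (q : k[X]) (hq : q ≠ 0) :
    aeval τ q ≠ 0 ∧ Q.ord (aeval τ q) ≤ q.natDegree := by
  have hτ0 : τ ≠ 0 := by
    intro h
    rw [h, Place.ord_zero] at hτ
    exact zero_ne_one hτ
  have hτ1 : Q.adicValuation τ < 1 := by
    rw [Q.adicValuation_eq_exp_neg_ord hτ0, hτ, show (1 : ℤᵐ⁰) = exp 0 from rfl, exp_lt_exp]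
    omega
  obtain ⟨q₁, hq1, hndvd⟩ := Polynomial.exists_eq_pow_rootMultiplicity_mul_and_not_dvd q hq 0
  rw [C_0, sub_zero] at hq1 hndvd
  set n := q.rootMultiplicity 0 with hn
  have hq10 : q₁ ≠ 0 := by
    rintro rfl
    exact hndvd (dvd_zero _)
  have hc : q₁.coeff 0 ≠ 0 := fun h => hndvd (Polynomial.X_dvd_iff.mpr h)
  have h1 : Q.adicValuation (aeval τ q₁) = 1 := by
    have h2 : aeval τ q₁ = aeval τ (divX q₁) * τ + algebraMap k E (q₁.coeff 0) := by
      conv_lhs => rw [← divX_mul_X_add q₁]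
      rw [map_add, map_mul, aeval_X, aeval_C]
    have h3 : Q.adicValuation (aeval τ (divX q₁)) ≤ 1 := by
      rw [Polynomial.aeval_eq_sum_range]
      apply Valuation.map_sum_le
      intro i _
      rw [Algebra.smul_def, map_mul, map_pow]
      exact mul_le_one' (Q.adicValuation_algebraMap_le_one _) (pow_le_one' hτ1.le _)
    have h4 : Q.adicValuation (aeval τ (divX q₁) * τ) < 1 := by
      rw [map_mul]
      exact mul_lt_one_of_nonneg_of_lt_one_right h3 zero_le hτ1
    have h5 := val_const Q hc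
    rw [h2, Valuation.map_add_eq_of_lt_right _ (by rw [h5]; exact h4), h5]
  obtain ⟨h6, h7⟩ := one_iff.mp h1
  have h8 : aeval τ q = τ ^ n * aeval τ q₁ := by
    conv_lhs => rw [hq1]
    rw [map_mul, map_pow, aeval_X]
  refine ⟨by rw [h8]; exact mul_ne_zero (pow_ne_zero _ hτ0) h6, ?_⟩
  rw [h8, Q.ord_mul (pow_ne_zero _ hτ0) h6, h7, add_zero, ← zpow_natCast, Q.ord_zpow, hτ, mul_one]
  have h9 : q.natDegree = n + q₁.natDegree := by
    conv_lhs => rw [hq1]
    rw [natDegree_mul (pow_ne_zero _ X_ne_zero) hq10, natDegree_pow, natDegree_X, mul_one]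
  rw [h9]
  push_cast
  omega

namespace Par

variable (p : Par G Q)

/-- the monic polynomial over `A` with the zeros prescribed by `e` -/
def pol (s : Finset (Place K F)) (e : Place K F → ℕ) : A[X] := ∏ P ∈ s, (X - C (p.c P)) ^ e P

theorem pol_monic (s : Finset (Place K F)) (e : Place K F → ℕ) : (p.pol s e).Monic :=
  monic_prod_of_monic _ _ fun P _ => (monic_X_sub_C _).pow _

theorem natDegree_pol (s : Finset (Place K F)) (e : Place K F → ℕ) :
    (p.pol s e).natDegree = ∑ P ∈ s, e P := by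
  rw [pol, natDegree_prod_of_monic _ _ fun P _ => (monic_X_sub_C _).pow _]
  refine Finset.sum_congr rfl fun P _ => ?_
  rw [(monic_X_sub_C (p.c P)).natDegree_pow, natDegree_X_sub_C, mul_one]

theorem map_pol (s : Finset (Place K F)) (e : Place K F → ℕ) :
    (p.pol s e).map (residue A) = X ^ ∑ P ∈ s, e P := by
  rw [pol, Polynomial.map_prod, ← Finset.prod_pow_eq_pow_sum]
  refine Finset.prod_congr rfl fun P _ => ?_
  rw [Polynomial.map_pow, Polynomial.map_sub, Polynomial.map_X, Polynomial.map_C, residue_c,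
    C_0, sub_zero]

theorem ev_pol (s : Finset (Place K F)) (e : Place K F → ℕ) :
    ev A p.t (p.pol s e) = ∏ P ∈ s, p.l P ^ e P := by
  rw [pol, map_prod]
  refine Finset.prod_congr rfl fun P _ => ?_
  rw [map_pow, map_sub, ev_X, ev_C]
  rfl

theorem ev_pol_ne (s : Finset (Place K F)) (e : Place K F → ℕ) : ev A p.t (p.pol s e) ≠ 0 := by
  rw [ev_pol]
  exact Finset.prod_ne_zero_iff.mpr fun P _ => pow_ne_zero _ (p.l_ne P)

theorem red_pol (s : Finset (Place K F)) (e : Place K F → ℕ) :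
    G.Red (ev A p.t (p.pol s e)) (p.τ ^ ∑ P ∈ s, e P) := by
  have := red_ev p.red (p.pol s e)
  rwa [map_pol, map_pow, aeval_X] at this

/-- the key claim: the polynomials attached to zeros and poles agree modulo `ε` -/
theorem claim (s : Finset (Place K F)) (e e' : Place K F → ℕ)
    (hee : ∑ P ∈ s, e P = ∑ P ∈ s, e' P) {ε : A} (hε0 : ε ≠ 0) {w : F} {ω : Fb}
    (hw : G.Red w ω)
    (hreg : G.RegOn Q ((1 + algebraMap K F ε * w) * ev A p.t (p.pol s e') *
      (ev A p.t (p.pol s e))⁻¹)) :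
    ∃ q : A[X], p.pol s e - p.pol s e' = C ε * q := by
  by_cases hp : p.pol s e - p.pol s e' = 0
  · exact ⟨0, by rw [hp, mul_zero]⟩
  obtain ⟨δ, q, hδ, hpq, hq⟩ := exists_content A _ hp
  have hδ' : (δ : K) ≠ 0 := fun h => hδ (Subtype.ext h)
  have hε' : (ε : K) ≠ 0 := fun h => hε0 (Subtype.ext h)
  by_cases h : (δ : K) * (ε : K)⁻¹ ∈ A
  · refine ⟨C ⟨_, h⟩ * q, ?_⟩
    rw [hpq, ← mul_assoc, ← C_mul]
    congr 2
    apply Subtype.ext
    change (δ : K) = ε * (δ * (ε : K)⁻¹)
    field_simp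
  exfalso
  obtain ⟨h1, h2⟩ := inv_mem_of_notMem A h
  rw [mul_inv, inv_inv] at h1
  have h2' : residue A ⟨(δ : K)⁻¹ * ε, h1⟩ = 0 := by
    convert h2 using 2
    apply Subtype.ext
    change (δ : K)⁻¹ * ε = ((δ : K) * (ε : K)⁻¹)⁻¹
    rw [mul_inv, inv_inv]
  set B := ev A p.t (p.pol s e) with hB
  set C' := ev A p.t (p.pol s e') with hC
  set d := ∑ P ∈ s, e P with hd
  have hB0 : B ≠ 0 := p.ev_pol_ne s e
  have hBred : G.Red B (p.τ ^ d) := p.red_pol s e
  have hCred : G.Red C' (p.τ ^ d) := by rw [hee]; exact p.red_pol s e'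
  have hq' := red_ev p.red q
  -- the function `f₁`
  set f₁ : F := (-(ev A p.t q) + algebraMap K F ((δ : K)⁻¹ * ε) * w * C') * B⁻¹ with hf₁
  have hτd : p.τ ^ d ≠ 0 := pow_ne_zero _ p.τ_ne
  have hf₁red : G.Red f₁ (-(aeval p.τ (q.map (residue A))) * (p.τ ^ d)⁻¹) := by
    have h3 := G.mul (G.add (neg hq') (G.mul (G.mul (G.alg ⟨_, h1⟩) hw) hCred)) (G.inv hBred hτd)
    rw [h2', map_zero, zero_mul, zero_mul, add_zero] at h3
    exact h3
  have hdiff : B - C' = algebraMap K F δ * ev A p.t q := by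
    rw [hB, hC, ← map_sub, hpq, map_mul, ev_C]
  have hf₁eq : f₁ = algebraMap K F (δ : K)⁻¹ *
      ((1 + algebraMap K F ε * w) * C' * B⁻¹ - 1) := by
    have h4 : algebraMap K F (δ : K) ≠ 0 := by simpa using hδ'
    have h5 : ev A p.t q = (algebraMap K F δ)⁻¹ * (B - C') := by
      rw [hdiff]
      field_simp
    rw [hf₁, h5, map_mul, map_inv₀]
    field_simp
    ring
  have hf₁reg : G.RegOn Q f₁ := by
    rw [hf₁eq]
    refine RegOn.mul (regOn_const _) (RegOn.sub hreg ?_)
    have := regOn_const (G := G) (Q := Q) 1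
    rwa [map_one] at this
  obtain ⟨h6, h7⟩ := ord_aeval_le Q p.ord _ hq
  have hne : -(aeval p.τ (q.map (residue A))) * (p.τ ^ d)⁻¹ ≠ 0 :=
    mul_ne_zero (neg_ne_zero.mpr h6) (inv_ne_zero hτd)
  have h8 := sum_le hf₁red hne hf₁reg ∅ (by simp)
  rw [Finset.sum_empty, Q.ord_mul (neg_ne_zero.mpr h6) (inv_ne_zero hτd), H18.ord_neg, Q.ord_inv,
    ← zpow_natCast, Q.ord_zpow, p.ord, mul_one] at h8
  -- degrees
  have h9 : (q.map (residue A)).natDegree < d := by
    have h10 : (p.pol s e - p.pol s e').natDegree < d := by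
      have hdpos : p.pol s e ≠ 1 := by
        intro h1'
        have hd0 : ∑ P ∈ s, e P = 0 := by rw [← p.natDegree_pol s e, h1', natDegree_one]
        have h2' : p.pol s e' = 1 := by
          rw [← (p.pol_monic s e').natDegree_eq_zero, p.natDegree_pol, ← hee, hd, hd0]
        exact hp (by rw [h1', h2', sub_self])
      have hd' : (p.pol s e).natDegree = d := p.natDegree_pol s e
      have h11 : (p.pol s e - p.pol s e').degree < (p.pol s e).degree :=
        degree_sub_lt_left (by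
          rw [degree_eq_natDegree (p.pol_monic s e).ne_zero,
            degree_eq_natDegree (p.pol_monic s e').ne_zero, p.natDegree_pol, p.natDegree_pol,
            ← hd, hee])
          (p.pol_monic s e).ne_zero
          (by rw [(p.pol_monic s e).leadingCoeff, (p.pol_monic s e').leadingCoeff])
      rw [← hd']
      exact natDegree_lt_natDegree hp h11
    refine lt_of_le_of_lt (natDegree_map_le) ?_
    rw [hpq, natDegree_C_mul hδ] at h10
    exact h10
  omega

/-- `h = gf^m * U` with `U ≡ 1` modulo `ε` on the disc -/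
theorem unit_of_near_one (s : Finset (Place K F)) (hs : ∀ P ∈ s, G.pl P = Q)
    (D : Place K F → ℤ) (hD : ∀ P, G.pl P = Q → P ∉ s → D P = 0) (hsum : ∑ P ∈ s, D P = 0)
    (m : ℤ) {ε : A} (hε0 : ε ≠ 0) {w : F} {ω : Fb} (hw : G.Red w ω)
    (hne : 1 + algebraMap K F ε * w ≠ 0)
    (hord : ∀ P, G.pl P = Q → P.ord (1 + algebraMap K F ε * w) = m * D P)
    {P : Place K F} (hP : G.pl P = Q) :
    P.adicValuation ((1 + algebraMap K F ε * w) / p.gf s D ^ m) = 1 ∧
      ∃ a ∈ A, val P ((1 + algebraMap K F ε * w) / p.gf s D ^ m) = 1 + ε * a := by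
  have hε' : (ε : K) ≠ 0 := fun h => hε0 (Subtype.ext h)
  have hu : ∀ P, G.pl P = Q →
      P.adicValuation ((1 + algebraMap K F ε * w) / p.gf s D ^ m) = 1 := by
    intro P hP
    rw [val_one_iff]
    refine ⟨div_ne_zero hne (zpow_ne_zero _ (p.gf_ne s D)), ?_⟩
    rw [div_eq_mul_inv, P.ord_mul hne (inv_ne_zero (zpow_ne_zero _ (p.gf_ne s D))), P.ord_inv,
      P.ord_zpow, hord P hP, p.ord_gf s hs D hP (hD P hP)]
    ring
  refine ⟨hu P hP, ?_⟩
  -- positive and negative parts
  set e : Place K F → ℕ := fun P => (m * D P).toNat with he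
  set e' : Place K F → ℕ := fun P => (-(m * D P)).toNat with he'
  have hee : ∑ P ∈ s, e P = ∑ P ∈ s, e' P := by
    have h1 : (∑ P ∈ s, (e P : ℤ)) - ∑ P ∈ s, (e' P : ℤ) = 0 := by
      rw [← Finset.sum_sub_distrib]
      have h2 : ∀ P ∈ s, (e P : ℤ) - e' P = m * D P := by
        intro P _
        simp only [he, he']
        omega
      rw [Finset.sum_congr rfl h2, ← Finset.mul_sum, hsum, mul_zero]
    have h3 : ((∑ P ∈ s, e P : ℕ) : ℤ) = ((∑ P ∈ s, e' P : ℕ) : ℤ) := by
      push_cast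
      linarith
    exact_mod_cast h3
  set B := ev A p.t (p.pol s e) with hB
  set C' := ev A p.t (p.pol s e') with hC
  have hB0 : B ≠ 0 := p.ev_pol_ne s e
  have hC0 : C' ≠ 0 := p.ev_pol_ne s e'
  have hG : p.gf s D ^ m = B * C'⁻¹ := by
    rw [eq_mul_inv_iff_mul_eq₀ hC0, hB, hC, p.ev_pol, p.ev_pol, gf, ← Finset.prod_zpow,
      ← Finset.prod_mul_distrib]
    refine Finset.prod_congr rfl fun P _ => ?_
    rw [← zpow_mul, ← zpow_natCast, ← zpow_natCast, ← zpow_add₀ (p.l_ne P)]
    congr 1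
    simp only [he, he']
    rw [mul_comm (D P) m]
    omega
  have hU : (1 + algebraMap K F ε * w) / p.gf s D ^ m =
      (1 + algebraMap K F ε * w) * C' * B⁻¹ := by
    rw [hG, div_eq_mul_inv, mul_inv, inv_inv]
    ring
  have hreg : G.RegOn Q ((1 + algebraMap K F ε * w) * C' * B⁻¹) := by
    intro P hP
    rw [← hU]
    exact (hu P hP).le
  obtain ⟨q, hq⟩ := p.claim s e e' hee hε0 hw hreg
  set d := ∑ P ∈ s, e P with hd
  have hBred : G.Red B (p.τ ^ d) := p.red_pol s e
  have hCred : G.Red C' (p.τ ^ d) := by rw [hee]; exact p.red_pol s e'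
  have hτd : p.τ ^ d ≠ 0 := pow_ne_zero _ p.τ_ne
  set f : F := (-(ev A p.t q) + w * C') * B⁻¹ with hf
  have hfred : G.Red f ((-(aeval p.τ (q.map (residue A))) + ω * p.τ ^ d) * (p.τ ^ d)⁻¹) :=
    G.mul (G.add (neg (red_ev p.red q)) (G.mul hw hCred)) (G.inv hBred hτd)
  have hdiff : B - C' = algebraMap K F ε * ev A p.t q := by
    rw [hB, hC, ← map_sub, hq, map_mul, ev_C]
  have h4 : algebraMap K F (ε : K) ≠ 0 := by simpa using hε'
  have h5 : ev A p.t q = (algebraMap K F ε)⁻¹ * (B - C') := by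
    rw [hdiff]
    field_simp
  have hUf : (1 + algebraMap K F ε * w) / p.gf s D ^ m = 1 + algebraMap K F ε * f := by
    rw [hU, hf, h5]
    field_simp
    ring
  have hfeq : f = algebraMap K F (ε : K)⁻¹ *
      ((1 + algebraMap K F ε * w) / p.gf s D ^ m - 1) := by
    rw [hUf, map_inv₀]
    field_simp
    ring
  have hfreg : G.RegOn Q f := by
    rw [hfeq]
    refine RegOn.mul (regOn_const _) (RegOn.sub (fun P hP => (hu P hP).le) ?_)
    have := regOn_const (G := G) (Q := Q) 1
    rwa [map_one] at this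
  refine ⟨val P f, val_mem hfred hfreg hP, ?_⟩
  rw [hUf, val_add (by rw [map_one]) (RegOn.mul (regOn_const _) hfreg P hP), val_one,
    val_mul (P.adicValuation_algebraMap_le_one _) (hfreg P hP), val_algebraMap]

end Par

end GRed

end Fermat.Agent.M2B
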