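import Mathlib
import Fermat.Agent.M2B.Claim

/-!
# The pairing of two functions `≡ 1 mod ε` is `≡ 1 mod ε`
-/

set_option autoImplicit false
set_option linter.unusedSectionVars false

noncomputable section

namespace Fermat.Agent.M2B

open AlgebraicCurve Polynomial IsLocalRing WithZero
open Fermat.Agent.FF Fermat.Agent.WP

namespace GRed

variable {K F Fb : Type*} [Field K] [Field F] [Field Fb] [Algebra K F] [IsAlgClosed K]
  [CharZero K] [FunField K F] {A : ValuationSubring K} [Algebra (ResidueField A) Fb]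
  {G : GRed K F Fb A} {Q : Place (ResidueField A) Fb}

theorem sum_eq {z : F} {u : Fb} (h : G.Red z u) (hu : u ≠ 0)
    (s : Finset (Place K F)) (hs : ∀ P ∈ s, G.pl P = Q)
    (hs' : ∀ P, G.pl P = Q → P ∉ s → P.ord z = 0) : ∑ P ∈ s, P.ord z = Q.ord u := by
  classical
  obtain ⟨E, hE⟩ := exists_div (K := K) z
  rw [← G.ord_eq h hu E hE Q]
  have h1 : Finsupp.mapDomain G.pl E Q = ∑ P ∈ E.support.filter (fun P => G.pl P = Q), E P := by
    rw [Finsupp.mapDomain, Finsupp.sum_apply, Finsupp.sum, Finset.sum_filter]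
    refine Finset.sum_congr rfl fun P _ => ?_
    rw [Finsupp.single_apply]
  rw [h1]
  have h2 : ∑ P ∈ s, P.ord z = ∑ P ∈ s, E P := Finset.sum_congr rfl fun P _ => (hE P).symm
  rw [h2]
  symm
  refine Finset.sum_subset (fun P hP => ?_) (fun P hP hP' => ?_)
  · by_contra h3
    rw [Finset.mem_filter, Finsupp.mem_support_iff, hE] at hP
    exact hP.1 (hs' P hP.2 h3)
  · by_contra h3
    exact hP' (Finset.mem_filter.mpr ⟨Finsupp.mem_support_iff.mpr h3, hs P hP⟩)

theorem red_near_one {ε : A} (hε : (ε : K) ∈ A.nonunits) {w : F} {ω : Fb} (hw : G.Red w ω) :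
    G.Red (1 + algebraMap K F ε * w) 1 := by
  have h1 : residue A ε = 0 := by
    rw [residue_eq_zero_iff]
    exact (A.coe_mem_nonunits_iff).mp hε
  have := G.add one (G.mul (G.alg ε) hw)
  rwa [h1, map_zero, zero_mul, add_zero] at this

theorem uval_mem {ε : A} (hε : (ε : K) ∈ A.nonunits) {P : Place K F} {U : F}
    (hU : P.adicValuation U = 1) (h : ∃ a ∈ A, val P U = 1 + ε * a) :
    uval P U ∈ Ueps A hε := by
  obtain ⟨a, ha, h⟩ := h
  exact ⟨a, ha, by rw [uval_coe hU, h]⟩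

/-- the product of the local symbols over a disc -/
theorem disc_mem (Q : Place (ResidueField A) Fb) {ε : A} (hε0 : ε ≠ 0)
    (hε : (ε : K) ∈ A.nonunits) {m : ℤ} (hm : m ≠ 0) {D E : Divisor K F} {w w' : F} {ω ω' : Fb}
    (hw : G.Red w ω) (hw' : G.Red w' ω') (hD : HasDiv m D (1 + algebraMap K F ε * w))
    (hE : HasDiv m E (1 + algebraMap K F ε * w'))
    (s : Finset (Place K F)) (hs : ∀ P ∈ s, G.pl P = Q)
    (hsD : ∀ P, G.pl P = Q → P ∉ s → D P = 0) (hsE : ∀ P, G.pl P = Q → P ∉ s → E P = 0) :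
    ∏ P ∈ s, lsym m P (D P) (1 + algebraMap K F ε * w) (E P) (1 + algebraMap K F ε * w') ∈
      Ueps A hε := by
  obtain ⟨p⟩ := exists_par G Q
  have sum0 : ∀ (D : Divisor K F) (w : F) (ω : Fb), G.Red w ω →
      HasDiv m D (1 + algebraMap K F ε * w) → (∀ P, G.pl P = Q → P ∉ s → D P = 0) →
      ∑ P ∈ s, D P = 0 := by
    intro D w ω hw hD hsD
    have h1 := sum_eq (red_near_one hε hw) one_ne_zero s hs (fun P hP hPs => by
      rw [hD.2, hsD P hP hPs, mul_zero])
    rw [Q.ord_one, Finset.sum_congr rfl fun P _ => hD.2 P, ← Finset.mul_sum] at h1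
    exact (mul_eq_zero.mp h1).resolve_left hm
  have hD0 := sum0 D w ω hw hD hsD
  have hE0 := sum0 E w' ω' hw' hE hsE
  set h := 1 + algebraMap K F ε * w with hh
  set k := 1 + algebraMap K F ε * w' with hk
  set g := p.gf s D with hg
  set g' := p.gf s E with hg'
  have hg0 : g ≠ 0 := p.gf_ne s D
  have hg'0 : g' ≠ 0 := p.gf_ne s E
  set U := h / g ^ m with hU
  set U' := k / g' ^ m with hU'
  have hUP : ∀ P ∈ s, P.adicValuation U = 1 ∧ uval P U ∈ Ueps A hε := by
    intro P hP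
    have h1 := p.unit_of_near_one s hs D hsD hD0 m hε0 hw hD.1 (fun P _ => hD.2 P) (hs P hP)
    exact ⟨h1.1, uval_mem hε h1.1 h1.2⟩
  have hUP' : ∀ P ∈ s, P.adicValuation U' = 1 ∧ uval P U' ∈ Ueps A hε := by
    intro P hP
    have h1 := p.unit_of_near_one s hs E hsE hE0 m hε0 hw' hE.1 (fun P _ => hE.2 P) (hs P hP)
    exact ⟨h1.1, uval_mem hε h1.1 h1.2⟩
  have hU0 : U ≠ 0 := div_ne_zero hD.1 (zpow_ne_zero _ hg0)
  have hU'0 : U' ≠ 0 := div_ne_zero hE.1 (zpow_ne_zero _ hg'0)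
  have hgU : h = g ^ m * U := by
    rw [hU]
    field_simp
  have hgU' : k = g' ^ m * U' := by
    rw [hU']
    field_simp
  have key : ∀ P ∈ s, lsym m P (D P) h (E P) k =
      tame P g g' ^ m * ((uval P U' ^ D P)⁻¹ * uval P U ^ E P) := by
    intro P hP
    have ordg : P.ord g = D P := p.ord_gf s hs D (hs P hP) (fun h => absurd hP h)
    have e1 : lsym m P (D P) h (E P) k = lsym m P (D P + 0) (g ^ m * U) (E P) k := by
      rw [← hgU, add_zero]
    rw [e1, lsym_mul_left (zpow_ne_zero _ hg0) hU0 hE.1 (by rw [P.ord_zpow, ordg])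
      (by rw [mul_zero]; exact (val_one_iff.mp (hUP P hP).1).2) (hE.2 P),
      lsym_zero_left (hUP P hP).1]
    have e2 : lsym m P (D P) (g ^ m) (E P) k = tame P g k := by
      rw [← ordg]
      exact lsym_principal (hE.2 P)
    rw [e2]
    have e3 : tame P g k = tame P g g' ^ m * (uval P U' ^ D P)⁻¹ := by
      conv_lhs => rw [hgU']
      rw [tame_mul_right P hg0 (zpow_ne_zero _ hg'0) hU'0, tame_zpow_right P hg0 hg'0,
        tame_of_unit_right (hUP' P hP).1, ordg]
    rw [e3, mul_assoc]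
  rw [Finset.prod_congr rfl key, Finset.prod_mul_distrib, Finset.prod_zpow,
    p.prod_tame_gf s hs D E hD0, one_zpow, one_mul]
  refine Subgroup.prod_mem _ fun P hP => Subgroup.mul_mem _ (Subgroup.inv_mem _
    (Subgroup.zpow_mem _ (hUP' P hP).2 _)) (Subgroup.zpow_mem _ (hUP P hP).2 _)

/-- **The pairing of two functions `≡ 1 mod ε` is `≡ 1 mod ε`.** -/
theorem pair_mem (G : GRed K F Fb A) {ε : A} (hε0 : ε ≠ 0)
    (hε : (ε : K) ∈ A.nonunits) {m : ℤ} (hm : m ≠ 0) {D E : Divisor K F} {w w' : F} {ω ω' : Fb}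
    (hw : G.Red w ω) (hw' : G.Red w' ω') (hD : HasDiv m D (1 + algebraMap K F ε * w))
    (hE : HasDiv m E (1 + algebraMap K F ε * w')) :
    pair m D (1 + algebraMap K F ε * w) E (1 + algebraMap K F ε * w') ∈ Ueps A hε := by
  classical
  set S := D.support ∪ E.support with hS
  have hS0 : ∀ v, v ∉ S → D v = 0 ∧ E v = 0 := by
    intro v hv
    rw [hS, Finset.mem_union, not_or, Finsupp.notMem_support_iff,
      Finsupp.notMem_support_iff] at hv
    exact hv
  unfold pair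
  rw [finprod_eq_prod_of_mulSupport_subset (s := S)]
  · rw [← Finset.prod_fiberwise_of_maps_to (g := G.pl) (t := S.image G.pl)
      (fun x hx => Finset.mem_image_of_mem _ hx)]
    refine Subgroup.prod_mem _ fun Q _ => ?_
    refine disc_mem Q hε0 hε hm hw hw' hD hE _ (fun P hP => (Finset.mem_filter.mp hP).2) ?_ ?_
    · intro P hP hPs
      exact (hS0 P fun h => hPs (Finset.mem_filter.mpr ⟨h, hP⟩)).1
    · intro P hP hPs
      exact (hS0 P fun h => hPs (Finset.mem_filter.mpr ⟨h, hP⟩)).2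
  · intro v hv
    by_contra hcon
    obtain ⟨h1, h2⟩ := hS0 v hcon
    apply hv
    change lsym m v (D v) _ (E v) _ = 1
    rw [h1, h2, lsym_zero_zero]

end GRed

section Root

variable {K : Type*} [Field K] [CharZero K] {A : ValuationSubring K}

theorem nonunits_of_pow {r : ℕ} (hr : 1 < r) (hrA : (r : K) ∈ A.nonunits) {ε : K}
    (h : ε ^ (r - 1) / r ∈ A.nonunits) : ε ∈ A.nonunits := by
  rw [A.mem_nonunits_iff] at h hrA ⊢
  have hr0 : (r : K) ≠ 0 := by exact_mod_cast (by omega : r ≠ 0)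
  have h1 : A.valuation (ε ^ (r - 1)) < 1 := by
    have : ε ^ (r - 1) = ε ^ (r - 1) / r * r := by field_simp
    rw [this, map_mul]
    exact mul_lt_one_of_nonneg_of_lt_one_left zero_le h hrA.le
  rw [map_pow] at h1
  exact (pow_lt_one_iff (by omega)).mp h1

/-- a root of unity of `r`-power order `≡ 1 mod ε` is `1` if `v(ε) > v(r) / (r - 1)` -/
theorem eq_one_of_mem_Ueps {r : ℕ} (hr : r.Prime) {ε : K} (hε0 : ε ≠ 0) (hε : ε ∈ A.nonunits)
    (h : ε ^ (r - 1) / r ∈ A.nonunits) {u : Kˣ} (hu : u ∈ Ueps A hε) {k : ℕ}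
    (huk : u ^ r ^ k = 1) : u = 1 := by
  by_contra hne
  have h1 : orderOf u ∣ r ^ k := orderOf_dvd_of_pow_eq_one huk
  obtain ⟨j, hj, hj'⟩ := (Nat.dvd_prime_pow hr).mp h1
  have hj0 : j ≠ 0 := by
    rintro rfl
    rw [pow_zero, orderOf_eq_one_iff] at hj'
    exact hne hj'
  obtain ⟨i, rfl⟩ : ∃ i, j = i + 1 := ⟨j - 1, by omega⟩
  set z := u ^ r ^ i with hz
  have hzU : z ∈ Ueps A hε := Subgroup.pow_mem _ hu _
  have hz1 : orderOf z = r := by
    rw [hz, orderOf_pow' u (pow_ne_zero _ hr.ne_zero), hj', Nat.gcd_eq_right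
      (pow_dvd_pow r (Nat.le_succ i)), pow_succ', Nat.mul_div_cancel _ (pow_pos hr.pos i)]
  have hprim : IsPrimitiveRoot (z : K) (r - 1 + 1) := by
    rw [Nat.sub_add_cancel hr.one_le, ← hz1]
    exact IsPrimitiveRoot.coe_units_iff.mpr (IsPrimitiveRoot.orderOf z)
  have h2 := hprim.prod_one_sub_pow_eq_order
  have h3 : ∀ i, ∃ a ∈ A, 1 - (z : K) ^ (i + 1) = ε * a := by
    intro i
    obtain ⟨a, ha, h4⟩ := Subgroup.pow_mem _ hzU (i + 1)
    refine ⟨-a, A.neg_mem _ ha, ?_⟩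
    rw [Units.val_pow_eq_pow_val] at h4
    rw [h4]
    ring
  choose a ha h4 using h3
  simp only [h4, Finset.prod_mul_distrib, Finset.prod_const, Finset.card_range] at h2
  have hr1 : (((r - 1 : ℕ) : K) + 1) = r := by
    rw [Nat.cast_sub hr.one_le]
    push_cast
    ring
  rw [hr1] at h2
  have h5 : (∏ i ∈ Finset.range (r - 1), a i) ∈ A := prod_mem fun i _ => ha i
  have hr0 : (r : K) ≠ 0 := by exact_mod_cast hr.ne_zero
  set b := ∏ i ∈ Finset.range (r - 1), a i with hb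
  have hb0 : b ≠ 0 := by
    intro h0
    rw [h0, mul_zero] at h2
    exact hr0 h2.symm
  have h6 : ε ^ (r - 1) / r = b⁻¹ := by
    rw [← h2]
    have := pow_ne_zero (r - 1) hε0
    field_simp
  rw [h6, A.mem_nonunits_iff, map_inv₀] at h
  have h7 := (A.valuation_le_one_iff b).mpr h5
  have h8 : A.valuation b ≠ 0 := (Valuation.ne_zero_iff _).mpr hb0
  have h9 : 1 ≤ (A.valuation b)⁻¹ := (one_le_inv₀ (zero_lt_iff.mpr h8)).mpr h7
  exact absurd h (not_lt.mpr h9)

end Root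

section Main

open Fermat.Agent.H05

variable {K F Fb : Type*} [Field K] [Field F] [Field Fb] [Algebra K F] [IsAlgClosed K]
  [CharZero K] [FunField K F] {A : ValuationSubring K} [Algebra (ResidueField A) Fb]

theorem Kum.isRep {m : ℕ} {x : Pic0 K F} {f : F} (h : Kum m x f) :
    ∃ D : Divisor K F, IsRep m x D f := by
  obtain ⟨hf, D, hD, h1⟩ := h
  exact ⟨D, ⟨hf, fun v => (h1 v).symm⟩, D.2, hD⟩

/-- **Isotropy**: classes with representatives `≡ 1 mod ε` are orthogonal when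
`v(ε) > v(r) / (r - 1)`. -/
theorem weilPairing_eq_one (G : GRed K F Fb A) {r k : ℕ} (hr : r.Prime)
    (hrA : (r : K) ∈ A.nonunits) {ε : K} (hε0 : ε ≠ 0)
    (h : ε ^ (r - 1) / r ∈ A.nonunits) {x y : Pic0 K F} {w w' : F} {ω ω' : Fb}
    (hw : G.Red w ω) (hw' : G.Red w' ω')
    (hx : Kum (r ^ k) x (1 + algebraMap K F ε * w))
    (hy : Kum (r ^ k) y (1 + algebraMap K F ε * w')) : weilPairing (r ^ k) x y = 1 := by
  have hε := nonunits_of_pow hr.one_lt hrA h
  obtain ⟨D, hD⟩ := Kum.isRep hx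
  obtain ⟨E, hE⟩ := Kum.isRep hy
  apply eq_one_of_mem_Ueps hr hε0 hε h _ (weilPairing_pow (r ^ k) x y)
  rw [weilPairing_eq hD hE]
  exact G.pair_mem (ε := ⟨ε, A.nonunits_subset hε⟩) (fun h0 => hε0 (congrArg Subtype.val h0)) hε
    (by exact_mod_cast pow_ne_zero k hr.ne_zero) hw hw' hD.1 hE.1

end Main

end Fermat.Agent.M2B
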