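import Mathlib
import Fermat.Agent.M2B.PairMem
import Fermat.Agent.H28.PlaceMap

/-!
# `GRed` from two charts with good reduction
-/

set_option autoImplicit false
set_option linter.unusedSectionVars false
set_option linter.style.haveILetI false

noncomputable section

namespace Fermat.Agent.M2B

open AlgebraicCurve IsLocalRing IsDedekindDomain WithZero
open Fermat.Agent.H28

variable {L : Type*} [Field L] [IsAlgClosed L] {A : ValuationSubring L} {F Fb : Type*}
  [Field F] [Field Fb] [Algebra L F] [Algebra (ResidueField A) Fb] {D : RedData A F Fb}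

/-- the Gauss reduction as a relation -/
def RedRel (D : RedData A F Fb) (z : F) (u : Fb) : Prop :=
  ∃ a b : D.Z, D.ρ b ≠ 0 ∧ z * (b : F) = a ∧ u * D.ρ b = D.ρ a

theorem RedRel.of_mem (a : D.Z) : RedRel D (a : F) (D.ρ a) :=
  ⟨a, 1, by rw [map_one]; exact one_ne_zero, by rw [OneMemClass.coe_one, mul_one],
    by rw [map_one, mul_one]⟩

theorem RedRel.zero : RedRel D 0 0 :=
  ⟨0, 1, by rw [map_one]; exact one_ne_zero, by rw [zero_mul]; rfl, by rw [zero_mul, map_zero]⟩

theorem RedRel.of_frac {w : F} {c : L} (hc : c ∈ A) {a b : D.Z} (hb : D.ρ b ≠ 0)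
    (h : w * (b : F) = algebraMap L F c * (a : F)) : ∃ u, RedRel D w u := by
  refine ⟨D.ρ (⟨algebraMap L F c, D.alg_mem ⟨c, hc⟩⟩ * a) / D.ρ b,
    ⟨algebraMap L F c, D.alg_mem ⟨c, hc⟩⟩ * a, b, hb, h, ?_⟩
  rw [div_mul_cancel₀ _ hb]

theorem exists_frac' (C : TwoCharts D) {w : F} (hw : w ≠ 0) : ∃ (c : L) (a b : D.Z), c ≠ 0 ∧
    D.ρ a ≠ 0 ∧ D.ρ b ≠ 0 ∧ w * (b : F) = algebraMap L F c * (a : F) := by
  obtain ⟨c, a, b, hc, ha, hb, h⟩ := C.h₁.exists_frac hw
  exact ⟨c, C.h₁.toZ a, C.h₁.toZ b, hc, C.h₁.ρ_toZ_ne ha, C.h₁.ρ_toZ_ne hb, h⟩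

theorem ordv_unif {K O F : Type*} [Field K] [CommRing O] [IsDedekindDomain O] [Algebra K O]
    [Field F] [Algebra O F] [IsFractionRing O F] [Algebra K F] [IsScalarTower K O F]
    (v : HeightOneSpectrum O) :
    ∃ y : O, (H18.placeOfPrime K F v).ord (algebraMap O F y) = 1 := by
  obtain ⟨y, hy⟩ := v.intValuation_exists_uniformizer
  refine ⟨y, ?_⟩
  rw [H18.ord_placeOfPrime, v.valuation_of_algebraMap, hy, log_exp, neg_neg]

theorem exists_param (C : TwoCharts D) (Q : Place (ResidueField A) Fb) :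
    ∃ t u, RedRel D t u ∧ Q.ord u = 1 ∧ ∀ P, C.redPl P = Q → P.adicValuation t ≤ 1 := by
  rcases C.exists_pl Q with ⟨v, rfl⟩ | ⟨v, hv, rfl⟩
  · obtain ⟨y, hy⟩ := ordv_unif (K := ResidueField A) (F := Fb) v
    obtain ⟨x, hx, hxy⟩ := C.h₁.red_surj (y : Fb) y.2
    refine ⟨x, y, ?_, hy, ?_⟩
    · have := RedRel.of_mem (D := D) ⟨x, C.h₁.mem x hx⟩
      rwa [hxy] at this
    · intro P hP
      have hgood : C.GoodPl P := by
        by_contra h
        rw [C.redPl_of_not h] at hP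
        exact C.pl₁_ne_pl₂ (C.tb₂_mem_primeOf h) hP.symm
      apply P.adicValuation_le_one_of_mem
      exact TwoCharts.GoodPl.inChart C hgood ⟨x, hx.isIntegral⟩
  · obtain ⟨y, hy⟩ := ordv_unif (K := ResidueField A) (F := Fb) v
    obtain ⟨x, hx, hxy⟩ := C.h₂.red_surj (y : Fb) y.2
    refine ⟨x, y, ?_, hy, ?_⟩
    · have := RedRel.of_mem (D := D) ⟨x, C.h₂.mem x hx⟩
      rwa [hxy] at this
    · intro P hP
      have hgood : ¬ C.GoodPl P := by
        intro h
        rw [C.redPl_of_good h] at hP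
        exact C.pl₁_ne_pl₂ hv hP
      apply P.adicValuation_le_one_of_mem
      exact (C.tVal_of_not_good hgood).1 ⟨x, hx.isIntegral⟩

/-- good reduction from two charts -/
def GRed.ofCharts (C : TwoCharts D) : GRed L F Fb A where
  Red := RedRel D
  add := by
    rintro z z' u u' ⟨a, b, hb, h1, h2⟩ ⟨a', b', hb', h1', h2'⟩
    refine ⟨a * b' + a' * b, b * b', ?_, ?_, ?_⟩
    · rw [map_mul]; exact mul_ne_zero hb hb'
    · push_cast
      rw [← h1, ← h1']; ring
    · rw [map_mul, map_add, map_mul, map_mul, ← h2, ← h2']; ring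
  mul := by
    rintro z z' u u' ⟨a, b, hb, h1, h2⟩ ⟨a', b', hb', h1', h2'⟩
    refine ⟨a * a', b * b', ?_, ?_, ?_⟩
    · rw [map_mul]; exact mul_ne_zero hb hb'
    · push_cast
      rw [← h1, ← h1']; ring
    · rw [map_mul, map_mul, ← h2, ← h2']; ring
  alg := by
    intro a
    have := RedRel.of_mem (D := D) ⟨algebraMap L F a, D.alg_mem a⟩
    rwa [D.ρ_alg] at this
  inv := by
    rintro z u ⟨a, b, hb, h1, h2⟩ hu
    have ha : D.ρ a ≠ 0 := by rw [← h2]; exact mul_ne_zero hu hb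
    have ha' : (a : F) ≠ 0 := by
      intro h0
      apply ha
      have : a = 0 := Subtype.ext h0
      rw [this, map_zero]
    have hz : z ≠ 0 := by
      rintro rfl
      rw [zero_mul] at h1
      exact ha' h1.symm
    refine ⟨b, a, ha, ?_, ?_⟩
    · rw [← h1]
      field_simp
    · rw [← h2]
      field_simp
  zero := by
    rintro u ⟨a, b, hb, h1, h2⟩
    rw [zero_mul] at h1
    have : a = 0 := Subtype.ext h1.symm
    rw [this, map_zero] at h2
    exact (mul_eq_zero.mp h2).resolve_right hb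
  pl := C.redPl
  ord_eq := by
    rintro z u ⟨a, b, hb, h1, h2⟩ hu E hE Q
    have ha : D.ρ a ≠ 0 := by rw [← h2]; exact mul_ne_zero hu hb
    have h3 := C.redTo_div (f := z) hE one_ne_zero ha hb (by rw [map_one, one_mul]; exact h1)
    have h4 := C.redTo_iff.mp h3 Q
    rw [h4, ← h2]
    congr 1
    field_simp
  param := exists_param C

end Fermat.Agent.M2B
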