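import Fermat.Agent.M2B.Charts
import Fermat.Agent.H28.ModCharts
import Fermat.Agent.H01.P.WildF
import Fermat.Agent.WP.JZero

/-!
# Isotropy of the classes of large level at `r` for the Weil pairing on `J₀(M)`
-/

set_option autoImplicit false
set_option linter.unusedSectionVars false
set_option linter.style.haveILetI false

noncomputable section

attribute [-instance] HahnSeries.instModule HahnSeries.instSMul HahnSeries.instDistribMulAction
  HahnSeries.instSMulZeroClass

namespace Fermat.Agent.M2B

open AlgebraicCurve IsLocalRing ModularCurve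
open Fermat.Agent.H28 Fermat.Agent.FF Fermat.Agent.WP

local notation "Qb" => AlgebraicClosure ℚ
local notation "kk" => IsLocalRing.ResidueField

section

variable {N : ℕ} {A : ValuationSubring Qb}

theorem red_of_mem' (x : (modRed N A).Z) :
    Q.Red A ((x : modularFunctionFieldBar N) : LaurentSeries Qb)
      (((modRed N A).ρ x : modularFunctionFieldFullC (kk A) N) : LaurentSeries (kk A)) := by
  obtain ⟨x, hx⟩ := x
  obtain ⟨y, hy, hy2⟩ := H28.mem_laurentRed.1 hx
  rw [H28.laurentRed_ρ ⟨x, hx⟩ hy]
  have hmem : (x : LaurentSeries Qb) ∈ Q.intL A := by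
    rw [Q.mem_intL]
    intro n
    rw [← hy, coeffMap_coeff]
    exact (y.coeff n).2
  have h1 := Q.Red.of_intL (A := A) ⟨_, hmem⟩
  convert h1 using 1
  ext n
  rw [coeffMap_coeff, Q.redL_coeff]
  congr 1
  apply Subtype.ext
  change ((y.coeff n : A) : Qb) = (x : LaurentSeries Qb).coeff n
  rw [← hy, coeffMap_coeff]
  rfl

variable [NeZero N]

theorem coe_algebraMap_bar (c : Qb) :
    ((algebraMap Qb (modularFunctionFieldBar N) c : modularFunctionFieldBar N) :
      LaurentSeries Qb) = HahnSeries.C c := by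
  have h1 : ((algebraMap Qb (modularFunctionFieldBar N) c : modularFunctionFieldBar N) :
      LaurentSeries Qb) = algebraMap Qb (LaurentSeries Qb) c := rfl
  rw [h1, algebraMap_laurentSeries_eq_single]
  rfl

theorem redRel_of_VL (C : TwoCharts (modRed N A)) {w : modularFunctionFieldBar N}
    (hw : (w : LaurentSeries Qb) ∈ Q.VL A) : ∃ u, RedRel (modRed N A) w u := by
  by_cases hw0 : w = 0
  · exact ⟨0, by rw [hw0]; exact RedRel.zero⟩
  obtain ⟨c, a, b, hc, ha, hb, h⟩ := exists_frac' C hw0
  by_cases hcA : c ∈ A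
  · exact RedRel.of_frac hcA hb h
  · exfalso
    obtain ⟨h1, h2⟩ := inv_mem_of_notMem A hcA
    obtain ⟨u, hu⟩ := hw
    have h3 := ((Q.Red.C h1).mul hu).mul (red_of_mem' b)
    rw [h2, map_zero, zero_mul, zero_mul] at h3
    have h6 : (w : LaurentSeries Qb) *
        ((b : modularFunctionFieldBar N) : LaurentSeries Qb) =
        (HahnSeries.C c : LaurentSeries Qb) *
        ((a : modularFunctionFieldBar N) : LaurentSeries Qb) := by
      have h5 := congrArg (fun z : modularFunctionFieldBar N => (z : LaurentSeries Qb)) h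
      simp only [MulMemClass.coe_mul, coe_algebraMap_bar] at h5
      exact h5
    have h4 : (HahnSeries.C c⁻¹ : LaurentSeries Qb) * (w : LaurentSeries Qb) *
        ((b : modularFunctionFieldBar N) : LaurentSeries Qb) =
        ((a : modularFunctionFieldBar N) : LaurentSeries Qb) := by
      rw [mul_assoc, h6, ← mul_assoc, ← map_mul, inv_mul_cancel₀ hc, map_one, one_mul]
    rw [h4] at h3
    exact ha (Subtype.ext ((red_of_mem' a).unique h3))

end

variable {M : ℕ} [NeZero M] {A : ValuationSubring Qb}

/-- **M2, Step B**: classes of `J₀(M)` of level `> v(r) / (r - 1)` are orthogonal for the Weil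
pairing. -/
theorem weilPairing_eq_one_of_lvl (C : TwoCharts (modRed M A)) {r : ℕ} (hr : r.Prime)
    (hA : A.LiesOverPrime r) {ε : Qb} (hε0 : ε ≠ 0) (hε : ε ^ (r - 1) / r ∈ A.nonunits) {k : ℕ}
    {x y : JZero M} (hx : x ∈ P.lvl A M (r ^ k) ε) (hy : y ∈ P.lvl A M (r ^ k) ε) :
    weilPairing (r ^ k) x y = 1 := by
  have key : ∀ x : JZero M, x ∈ P.lvl A M (r ^ k) ε → ∃ (w : modularFunctionFieldBar M)
      (u : modularFunctionFieldFullC (kk A) M), RedRel (modRed M A) w u ∧
      H05.Kum (r ^ k) x (1 + algebraMap Qb (modularFunctionFieldBar M) ε * w) := by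
    rintro x ⟨f, hf, h, hh, hfh⟩
    set w : modularFunctionFieldBar M :=
      algebraMap Qb (modularFunctionFieldBar M) ε⁻¹ * (f - 1) with hw
    have hε' : algebraMap Qb (modularFunctionFieldBar M) ε ≠ 0 := by simpa using hε0
    have hwh : (w : LaurentSeries Qb) = h := by
      have h1 : (w : LaurentSeries Qb) =
          (HahnSeries.C ε⁻¹ : LaurentSeries Qb) * ((f : LaurentSeries Qb) - 1) := by
        rw [hw, MulMemClass.coe_mul, coe_algebraMap_bar, AddSubgroupClass.coe_sub,
          OneMemClass.coe_one]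
      rw [h1, hfh, ← mul_assoc, ← map_mul, inv_mul_cancel₀ hε0, map_one, one_mul]
    obtain ⟨u, hu⟩ := redRel_of_VL C (w := w) (by rw [hwh]; exact hh)
    refine ⟨w, u, hu, ?_⟩
    have h2 : 1 + algebraMap Qb (modularFunctionFieldBar M) ε * w = f := by
      rw [hw, map_inv₀]
      field_simp
      ring
    rw [h2]
    exact hf
  obtain ⟨w, u, hu, hx'⟩ := key x hx
  obtain ⟨w', u', hu', hy'⟩ := key y hy
  have hrA : (r : Qb) ∈ A.nonunits := hA
  exact weilPairing_eq_one (GRed.ofCharts C) hr hrA hε0 hε hu hu' hx' hy'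

end Fermat.Agent.M2B
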